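import Fermat.Agent.S14.Thaine.Defs

/-!
# Route T, block Gen (owner helper9): characters of finite abelian groups and the local
Euler factor `∏_{i<p} (1 - t^i x)⁻¹` for a `p`-th root of unity `t`.
-/

set_option autoImplicit false

namespace Fermat.Agent.S14.Thaine.Gen

open Finset

/-- A proper subgroup `H` of a finite abelian group containing all `p`-th powers is contained in
the kernel of a nontrivial character of exponent `p`. -/
theorem exists_char_of_ne_top {G : Type*} [CommGroup G] [Finite G] (p : ℕ) (H : Subgroup G)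
    (hH : H ≠ ⊤) (hpow : (powMonoidHom p : G →* G).range ≤ H) :
    ∃ θ : G →* ℂˣ, θ ≠ 1 ∧ (∀ c, θ c ^ p = 1) ∧ ∀ h ∈ H, θ h = 1 := by
  obtain ⟨a, ha⟩ : ∃ a : G, a ∉ H := by
    by_contra hcon
    exact hH (eq_top_iff.mpr fun x _ => by_contra fun hx => hcon ⟨x, hx⟩)
  have ha' : (QuotientGroup.mk' H a) ≠ 1 := by
    intro h
    exact ha ((QuotientGroup.eq_one_iff a).mp h)
  have : NeZero (Monoid.exponent (G ⧸ H)) := ⟨Monoid.exponent_ne_zero_of_finite⟩
  obtain ⟨φ, hφ⟩ := CommGroup.exists_apply_ne_one_of_hasEnoughRootsOfUnity (G ⧸ H) ℂ ha'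
  refine ⟨φ.comp (QuotientGroup.mk' H), ?_, ?_, ?_⟩
  · intro h
    apply hφ
    have := DFunLike.congr_fun h a
    simpa using this
  · intro c
    have hc : c ^ p ∈ H := hpow ⟨c, rfl⟩
    have : QuotientGroup.mk' H (c ^ p) = 1 := (QuotientGroup.eq_one_iff _).mpr hc
    rw [← map_pow, MonoidHom.comp_apply, this, map_one]
  · intro h hh
    have : QuotientGroup.mk' H h = 1 := (QuotientGroup.eq_one_iff _).mpr hh
    rw [MonoidHom.comp_apply, this, map_one]

/-- For a nontrivial `p`-th root of unity `t` (`p` prime): `∏_{i<p} (1 - t^i y) = 1 - y^p`. -/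
theorem prod_one_sub_pow_mul {p : ℕ} (hp : p.Prime) {t : ℂ} (ht : t ^ p = 1) (ht1 : t ≠ 1)
    (y : ℂ) : ∏ i ∈ range p, (1 - t ^ i * y) = 1 - y ^ p := by
  have hprim : IsPrimitiveRoot t p := by
    have hdvd : orderOf t ∣ p := orderOf_dvd_of_pow_eq_one ht
    rcases (Nat.dvd_prime hp).mp hdvd with h | h
    · exact absurd (orderOf_eq_one_iff.mp h) ht1
    · rw [← h]; exact IsPrimitiveRoot.orderOf t
  have h := hprim.pow_sub_pow_eq_prod_sub_mul (1 : ℂ) y hp.pos
  rw [one_pow] at h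
  rw [h]
  have hinj : Set.InjOn (fun i : ℕ => t ^ i) (range p : Set ℕ) := by
    intro i hi j hj hij
    exact hprim.pow_inj (by simpa using hi) (by simpa using hj) hij
  have himg : (range p).image (fun i : ℕ => t ^ i) = Polynomial.nthRootsFinset p (1 : ℂ) := by
    apply Finset.eq_of_subset_of_card_le
    · intro z hz
      obtain ⟨i, -, rfl⟩ := Finset.mem_image.mp hz
      rw [Polynomial.mem_nthRootsFinset hp.pos]
      rw [← pow_mul, mul_comm, pow_mul, ht, one_pow]
    · rw [hprim.card_nthRootsFinset, Finset.card_image_of_injOn hinj, card_range]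
  rw [← himg, Finset.prod_image hinj]

/-- The local Euler factor has norm `≥ 1`. -/
theorem one_le_norm_localFactor {p : ℕ} (hp : p.Prime) {t : ℂ} (ht : t ^ p = 1) {x : ℝ}
    (hx0 : 0 ≤ x) (hx1 : x < 1) :
    1 ≤ ‖∏ i ∈ range p, (1 - t ^ i * (x : ℂ))⁻¹‖ := by
  rw [Finset.prod_inv_distrib, norm_inv]
  by_cases ht1 : t = 1
  · subst ht1
    simp only [one_pow, one_mul, prod_const, card_range, norm_pow]
    have h1 : ‖(1 : ℂ) - (x : ℂ)‖ = 1 - x := by
      rw [← Complex.ofReal_one, ← Complex.ofReal_sub, Complex.norm_real, Real.norm_eq_abs,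
        abs_of_pos (by linarith)]
    rw [h1]
    have h2 : (1 - x) ^ p ≤ 1 := pow_le_one₀ (by linarith) (by linarith)
    have h3 : 0 < (1 - x) ^ p := pow_pos (by linarith) p
    exact (one_le_inv₀ h3).mpr h2
  · rw [prod_one_sub_pow_mul hp ht ht1]
    have h1 : ‖(1 : ℂ) - (x : ℂ) ^ p‖ = 1 - x ^ p := by
      rw [← Complex.ofReal_one, ← Complex.ofReal_pow, ← Complex.ofReal_sub, Complex.norm_real,
        Real.norm_eq_abs, abs_of_pos]
      have : x ^ p < 1 := pow_lt_one₀ hx0 hx1 hp.ne_zero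
      linarith
    rw [h1]
    have h2 : x ^ p < 1 := pow_lt_one₀ hx0 hx1 hp.ne_zero
    have h3 : 0 ≤ x ^ p := pow_nonneg hx0 p
    exact (one_le_inv₀ (by linarith)).mpr (by linarith)

/-- For `t = 1` the local Euler factor is `(1-x)^(-p) ≥ exp (p x)`. -/
theorem exp_le_norm_localFactor_one (p : ℕ) {x : ℝ} (hx1 : x < 1) :
    Real.exp (p * x) ≤ ‖∏ i ∈ range p, (1 - (1 : ℂ) ^ i * (x : ℂ))⁻¹‖ := by
  rw [Finset.prod_inv_distrib, norm_inv]
  simp only [one_pow, one_mul, prod_const, card_range, norm_pow]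
  have h1 : ‖(1 : ℂ) - (x : ℂ)‖ = 1 - x := by
    rw [← Complex.ofReal_one, ← Complex.ofReal_sub, Complex.norm_real, Real.norm_eq_abs,
      abs_of_pos (by linarith)]
  rw [h1]
  have h3 : 0 < (1 - x) ^ p := pow_pos (by linarith) p
  rw [le_inv_comm₀ (Real.exp_pos _) h3, ← Real.exp_neg]
  have h4 : 1 - x ≤ Real.exp (-x) := by
    have := Real.add_one_le_exp (-x)
    linarith
  calc (1 - x) ^ p ≤ (Real.exp (-x)) ^ p := pow_le_pow_left₀ (by linarith) h4 p
    _ = Real.exp (-(p * x)) := by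
        rw [← Real.exp_nat_mul]; ring_nf

end Fermat.Agent.S14.Thaine.Gen
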