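import Fermat.Agent.S14.Thaine.Iface.ClassZeta
import Fermat.Agent.S14.Thaine.Iface.ZetaBounds
import Fermat.Agent.S14.Thaine.Gen.Char

/-!
# Route T, block Gen (owner helper9): `L`-series of class group characters

For a character `ψ` of the class group, `twist K ψ s : I ↦ ψ([I]) N(I)^(-s)` is completely
multiplicative; its sum is `∑_C ψ(C) ζ(s, C)`, bounded near `s = 1` for `ψ ≠ 1` (interface
`ClassZeta`), and the Euler product (interface `ZetaBounds`) shows that the primes in the kernel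
of a nontrivial character `θ` of exponent `p` have density at most `1/p` (`sum_le_of_char`).
-/

set_option autoImplicit false

namespace Fermat.Agent.S14.Thaine.Gen

open NumberField Finset
open scoped nonZeroDivisors

variable (K : Type*) [Field K] [NumberField K]

/-- The completely multiplicative function `I ↦ ψ([I]) N(I)^(-s)` on nonzero integral ideals. -/
noncomputable def twist (ψ : ClassGroup (𝓞 K) →* ℂˣ) (s : ℝ) : (Ideal (𝓞 K))⁰ →* ℂ where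
  toFun I := (ψ (ClassGroup.mk0 I) : ℂ) *
    (((Ideal.absNorm (I : Ideal (𝓞 K)) : ℝ) ^ (-s) : ℝ) : ℂ)
  map_one' := by simp
  map_mul' I J := by
    have h : ((Ideal.absNorm ((I * J : (Ideal (𝓞 K))⁰) : Ideal (𝓞 K)) : ℝ)) ^ (-s) =
        ((Ideal.absNorm (I : Ideal (𝓞 K)) : ℝ)) ^ (-s) *
          ((Ideal.absNorm (J : Ideal (𝓞 K)) : ℝ)) ^ (-s) := by
      rw [Submonoid.coe_mul, map_mul, Nat.cast_mul,
        Real.mul_rpow (Nat.cast_nonneg _) (Nat.cast_nonneg _)]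
    rw [h, map_mul, map_mul]
    push_cast
    ring

theorem twist_apply (ψ : ClassGroup (𝓞 K) →* ℂˣ) (s : ℝ) (I : (Ideal (𝓞 K))⁰) :
    twist K ψ s I = (ψ (ClassGroup.mk0 I) : ℂ) *
      (((Ideal.absNorm (I : Ideal (𝓞 K)) : ℝ) ^ (-s) : ℝ) : ℂ) := rfl

theorem norm_twist {p : ℕ} (hp : p ≠ 0) (ψ : ClassGroup (𝓞 K) →* ℂˣ) (hψ : ∀ c, ψ c ^ p = 1)
    (s : ℝ) (I : (Ideal (𝓞 K))⁰) :
    ‖twist K ψ s I‖ = ((Ideal.absNorm (I : Ideal (𝓞 K)) : ℝ)) ^ (-s) := by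
  have h1 : ‖(ψ (ClassGroup.mk0 I) : ℂ)‖ = 1 := by
    apply Complex.norm_eq_one_of_pow_eq_one _ hp
    have := congrArg (fun z : ℂˣ => (z : ℂ)) (hψ (ClassGroup.mk0 I))
    simpa using this
  rw [twist_apply, norm_mul, h1, one_mul, Complex.norm_real, Real.norm_eq_abs,
    abs_of_nonneg (Real.rpow_nonneg (Nat.cast_nonneg _) _)]

theorem summable_twist {p : ℕ} (hp : p ≠ 0) (ψ : ClassGroup (𝓞 K) →* ℂˣ)
    (hψ : ∀ c, ψ c ^ p = 1) {s : ℝ} (hs : 1 < s) :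
    Summable (fun I : (Ideal (𝓞 K))⁰ => ‖twist K ψ s I‖) := by
  simp_rw [norm_twist K hp ψ hψ s]
  exact summable_absNorm_rpow K hs

theorem tsum_twist_eq {p : ℕ} (hp : p ≠ 0) (ψ : ClassGroup (𝓞 K) →* ℂˣ)
    (hψ : ∀ c, ψ c ^ p = 1) {s : ℝ} (hs : 1 < s) :
    ∑' I : (Ideal (𝓞 K))⁰, twist K ψ s I =
      ∑ C : ClassGroup (𝓞 K), (ψ C : ℂ) * ((classZeta K C s : ℝ) : ℂ) := by
  have hsum : Summable (fun I : (Ideal (𝓞 K))⁰ => twist K ψ s I) :=
    (summable_twist K hp ψ hψ hs).of_norm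
  have h1 := hsum.hasSum.tsum_fiberwise
    (ClassGroup.mk0 : (Ideal (𝓞 K))⁰ → ClassGroup (𝓞 K))
  have h2 := h1.unique (hasSum_fintype _)
  rw [h2]
  refine Finset.sum_congr rfl fun C _ => ?_
  have h3 : ∀ I : ((ClassGroup.mk0 : (Ideal (𝓞 K))⁰ → ClassGroup (𝓞 K)) ⁻¹' {C}),
      twist K ψ s I.1 = (ψ C : ℂ) *
        (((Ideal.absNorm ((I.1 : (Ideal (𝓞 K))⁰) : Ideal (𝓞 K)) : ℝ) ^ (-s) : ℝ) : ℂ) := by
    intro I
    have hI : ClassGroup.mk0 I.1 = C := I.2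
    rw [twist_apply, hI]
  simp_rw [h3]
  rw [tsum_mul_left, classZeta, Complex.ofReal_tsum]
  rfl

theorem exists_bound_tsum_twist {p : ℕ} (hp : p ≠ 0) (ψ : ClassGroup (𝓞 K) →* ℂˣ)
    (hψ : ∀ c, ψ c ^ p = 1) (hne : ψ ≠ 1) :
    ∃ M : ℝ, ∀ s : ℝ, 1 < s → s ≤ 2 → ‖∑' I : (Ideal (𝓞 K))⁰, twist K ψ s I‖ ≤ M := by
  choose M hM using fun C : ClassGroup (𝓞 K) => classZeta_sub_bounded K C 1
  refine ⟨∑ C : ClassGroup (𝓞 K), M C, fun s hs hs2 => ?_⟩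
  rw [tsum_twist_eq K hp ψ hψ hs]
  have h0 : ∑ C : ClassGroup (𝓞 K), (ψ C : ℂ) = 0 := by
    have hne' : (Units.coeHom ℂ).comp ψ ≠ 1 := by
      intro h
      apply hne
      ext c
      have := DFunLike.congr_fun h c
      simpa using this
    simpa using sum_hom_units_eq_zero ((Units.coeHom ℂ).comp ψ) hne'
  have h1 : ∑ C : ClassGroup (𝓞 K), (ψ C : ℂ) * ((classZeta K C s : ℝ) : ℂ) =
      ∑ C : ClassGroup (𝓞 K), (ψ C : ℂ) *
        (((classZeta K C s - classZeta K 1 s : ℝ)) : ℂ) := by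
    have : ∑ C : ClassGroup (𝓞 K), (ψ C : ℂ) * (((classZeta K C s - classZeta K 1 s : ℝ)) : ℂ)
        = ∑ C : ClassGroup (𝓞 K), (ψ C : ℂ) * ((classZeta K C s : ℝ) : ℂ) -
          (∑ C : ClassGroup (𝓞 K), (ψ C : ℂ)) * ((classZeta K 1 s : ℝ) : ℂ) := by
      rw [Finset.sum_mul, ← Finset.sum_sub_distrib]
      refine Finset.sum_congr rfl fun C _ => ?_
      push_cast
      ring
    rw [this, h0, zero_mul, sub_zero]
  rw [h1]
  refine (norm_sum_le _ _).trans (Finset.sum_le_sum fun C _ => ?_)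
  have hn : ‖(ψ C : ℂ)‖ = 1 := by
    apply Complex.norm_eq_one_of_pow_eq_one _ hp
    have := congrArg (fun z : ℂˣ => (z : ℂ)) (hψ C)
    simpa using this
  rw [norm_mul, hn, one_mul, Complex.norm_real, Real.norm_eq_abs]
  exact hM C s hs hs2

/-- The quantity `N(v)^(-s)` lies in `[0, 1)` for `s > 0`. -/
theorem absNorm_rpow_lt_one (v : IsDedekindDomain.HeightOneSpectrum (𝓞 K)) {s : ℝ} (hs : 0 < s) :
    0 ≤ ((Ideal.absNorm v.asIdeal : ℝ)) ^ (-s) ∧ ((Ideal.absNorm v.asIdeal : ℝ)) ^ (-s) < 1 := by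
  refine ⟨Real.rpow_nonneg (Nat.cast_nonneg _) _, ?_⟩
  have h0 : Ideal.absNorm v.asIdeal ≠ 0 := by
    rw [Ne, Ideal.absNorm_eq_zero_iff]; exact v.ne_bot
  have h1 : Ideal.absNorm v.asIdeal ≠ 1 := by
    rw [Ne, Ideal.absNorm_eq_one_iff]; exact v.isPrime.ne_top
  have h2 : (1 : ℝ) < (Ideal.absNorm v.asIdeal : ℝ) := by
    have : 1 < Ideal.absNorm v.asIdeal := by omega
    exact_mod_cast this
  exact Real.rpow_lt_one_of_one_lt_of_neg h2 (by linarith)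

/-- (L1) If `θ` is a nontrivial character of exponent `p` of the class group, the primes in its
kernel have "density at most `1/p`". -/
theorem sum_le_of_char {p : ℕ} [Fact p.Prime] (θ : ClassGroup (𝓞 K) →* ℂˣ) (hθ1 : θ ≠ 1)
    (hθp : ∀ c, θ c ^ p = 1) :
    ∃ C : ℝ, ∀ s : ℝ, 1 < s → s ≤ 2 →
      ∀ T : Finset (IsDedekindDomain.HeightOneSpectrum (𝓞 K)),
        (∀ v ∈ T, θ (ClassGroup.mk0 (primeNZD K v)) = 1) →
        (p : ℝ) * ∑ v ∈ T, ((Ideal.absNorm v.asIdeal : ℝ)) ^ (-s) ≤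
          Real.log (1 / (s - 1)) + C := by
  have hp : p.Prime := Fact.out
  have hp0 : p ≠ 0 := hp.ne_zero
  obtain ⟨c, hc⟩ := tsum_absNorm_rpow_le K
  -- the powers of `θ`
  have hpow : ∀ i : ℕ, ∀ c, (θ ^ i) c ^ p = 1 := by
    intro i c
    rw [MonoidHom.pow_apply, ← pow_mul, mul_comm, pow_mul, hθp, one_pow]
  have hne : ∀ i ∈ Finset.Ico 1 p, θ ^ i ≠ 1 := by
    intro i hi h
    rw [Finset.mem_Ico] at hi
    apply hθ1
    ext c
    have h1 : (θ c) ^ i = 1 := by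
      have := DFunLike.congr_fun h c
      simpa [MonoidHom.pow_apply] using this
    have h2 : orderOf (θ c) ∣ Nat.gcd i p :=
      Nat.dvd_gcd (orderOf_dvd_of_pow_eq_one h1) (orderOf_dvd_of_pow_eq_one (hθp c))
    have h3 : Nat.gcd i p = 1 := (Nat.coprime_of_lt_prime (by omega) hi.2 hp).symm
    rw [h3, Nat.dvd_one, orderOf_eq_one_iff] at h2
    rw [h2]; rfl
  have hM : ∀ i ∈ Finset.Ico 1 p, ∃ M : ℝ, ∀ s : ℝ, 1 < s → s ≤ 2 →
      ‖∑' I : (Ideal (𝓞 K))⁰, twist K (θ ^ i) s I‖ ≤ M :=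
    fun i hi => exists_bound_tsum_twist K hp0 (θ ^ i) (hpow i) (hne i hi)
  choose! M hM using hM
  refine ⟨Real.log (c * ∏ i ∈ Finset.Ico 1 p, M i), fun s hs hs2 T hT => ?_⟩
  have hs0 : 0 < s - 1 := by linarith
  -- the Euler product
  set F : IsDedekindDomain.HeightOneSpectrum (𝓞 K) → ℂ := fun v =>
    ∏ i ∈ Finset.range p, (1 - twist K (θ ^ i) s (primeNZD K v))⁻¹ with hF
  have hprod : HasProd F (∏ i ∈ Finset.range p, ∑' I : (Ideal (𝓞 K))⁰, twist K (θ ^ i) s I) :=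
    hasProd_prod fun i _ => ideal_eulerProduct_hasProd K (twist K (θ ^ i) s)
      (summable_twist K hp0 (θ ^ i) (hpow i) hs)
  have hnorm := hprod.norm
  -- local factors
  have hloc : ∀ v : IsDedekindDomain.HeightOneSpectrum (𝓞 K),
      F v = ∏ i ∈ Finset.range p,
        (1 - ((θ (ClassGroup.mk0 (primeNZD K v)) : ℂˣ) : ℂ) ^ i *
          ((((Ideal.absNorm v.asIdeal : ℝ)) ^ (-s) : ℝ) : ℂ))⁻¹ := by
    intro v
    rw [hF]
    refine Finset.prod_congr rfl fun i _ => ?_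
    rw [twist_apply, MonoidHom.pow_apply, Units.val_pow_eq_pow_val]
    rfl
  have htp : ∀ v : IsDedekindDomain.HeightOneSpectrum (𝓞 K),
      (((θ (ClassGroup.mk0 (primeNZD K v)) : ℂˣ) : ℂ)) ^ p = 1 := by
    intro v
    have := congrArg (fun z : ℂˣ => (z : ℂ)) (hθp (ClassGroup.mk0 (primeNZD K v)))
    simpa using this
  have hge1 : ∀ v : IsDedekindDomain.HeightOneSpectrum (𝓞 K), 1 ≤ ‖F v‖ := by
    intro v
    rw [hloc v]
    obtain ⟨hx0, hx1⟩ := absNorm_rpow_lt_one K v (by linarith : (0 : ℝ) < s)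
    exact one_le_norm_localFactor hp (htp v) hx0 hx1
  have hgeT : ∀ v ∈ T, Real.exp (p * ((Ideal.absNorm v.asIdeal : ℝ)) ^ (-s)) ≤ ‖F v‖ := by
    intro v hv
    rw [hloc v, hT v hv]
    obtain ⟨-, hx1⟩ := absNorm_rpow_lt_one K v (by linarith : (0 : ℝ) < s)
    simpa using exp_le_norm_localFactor_one p hx1
  have h1 : ∏ v ∈ T, ‖F v‖ ≤
      ‖∏ i ∈ Finset.range p, ∑' I : (Ideal (𝓞 K))⁰, twist K (θ ^ i) s I‖ :=
    by
    classical
    refine ge_of_tendsto hnorm (Filter.eventually_atTop.2 ⟨T, fun S hTS => ?_⟩)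
    rw [← Finset.prod_sdiff hTS]
    have h11 : (1 : ℝ) ≤ ∏ v ∈ S \ T, ‖F v‖ := by
      calc (1 : ℝ) = ∏ v ∈ S \ T, (1 : ℝ) := by simp
        _ ≤ _ := Finset.prod_le_prod (fun _ _ => zero_le_one) (fun v _ => hge1 v)
    calc ∏ v ∈ T, ‖F v‖ = 1 * ∏ v ∈ T, ‖F v‖ := (one_mul _).symm
      _ ≤ (∏ v ∈ S \ T, ‖F v‖) * ∏ v ∈ T, ‖F v‖ :=
        mul_le_mul_of_nonneg_right h11 (Finset.prod_nonneg fun _ _ => norm_nonneg _)
  have h2 : Real.exp ((p : ℝ) * ∑ v ∈ T, ((Ideal.absNorm v.asIdeal : ℝ)) ^ (-s)) ≤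
      ∏ v ∈ T, ‖F v‖ := by
    rw [Finset.mul_sum, Real.exp_sum]
    exact Finset.prod_le_prod (fun v _ => (Real.exp_pos _).le) hgeT
  -- bound the product of the `L`-values
  have h3 : ‖∏ i ∈ Finset.range p, ∑' I : (Ideal (𝓞 K))⁰, twist K (θ ^ i) s I‖ ≤
      c / (s - 1) * ∏ i ∈ Finset.Ico 1 p, M i := by
    rw [norm_prod, Finset.range_eq_Ico, Finset.prod_eq_prod_Ico_succ_bot hp.pos]
    have h0 : ‖∑' I : (Ideal (𝓞 K))⁰, twist K (θ ^ 0) s I‖ ≤ c / (s - 1) := by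
      have h01 : ∀ I : (Ideal (𝓞 K))⁰, twist K (θ ^ 0) s I =
          ((((Ideal.absNorm (I : Ideal (𝓞 K)) : ℝ)) ^ (-s) : ℝ) : ℂ) := by
        intro I
        rw [twist_apply, pow_zero]
        simp
      simp_rw [h01]
      rw [← Complex.ofReal_tsum, Complex.norm_real, Real.norm_eq_abs,
        abs_of_nonneg (tsum_nonneg fun I => Real.rpow_nonneg (Nat.cast_nonneg _) _)]
      exact hc s hs hs2
    exact mul_le_mul h0 (Finset.prod_le_prod (fun i _ => norm_nonneg _)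
      (fun i hi => hM i hi s hs hs2)) (Finset.prod_nonneg fun i _ => norm_nonneg _)
      ((norm_nonneg _).trans h0)
  have h4 : Real.exp ((p : ℝ) * ∑ v ∈ T, ((Ideal.absNorm v.asIdeal : ℝ)) ^ (-s)) ≤
      c / (s - 1) * ∏ i ∈ Finset.Ico 1 p, M i := h2.trans (h1.trans h3)
  have h5 : 0 < c / (s - 1) * ∏ i ∈ Finset.Ico 1 p, M i := (Real.exp_pos _).trans_le h4
  have h6 : c / (s - 1) * ∏ i ∈ Finset.Ico 1 p, M i =
      1 / (s - 1) * (c * ∏ i ∈ Finset.Ico 1 p, M i) := by ring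
  have h7 : 0 < c * ∏ i ∈ Finset.Ico 1 p, M i := by
    rw [h6] at h5
    have h8 : 0 < 1 / (s - 1) := by positivity
    exact (mul_pos_iff_of_pos_left h8).mp h5
  calc (p : ℝ) * ∑ v ∈ T, ((Ideal.absNorm v.asIdeal : ℝ)) ^ (-s)
      = Real.log (Real.exp ((p : ℝ) * ∑ v ∈ T, ((Ideal.absNorm v.asIdeal : ℝ)) ^ (-s))) :=
        (Real.log_exp _).symm
    _ ≤ Real.log (c / (s - 1) * ∏ i ∈ Finset.Ico 1 p, M i) :=
        Real.log_le_log (Real.exp_pos _) h4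
    _ = Real.log (1 / (s - 1)) + Real.log (c * ∏ i ∈ Finset.Ico 1 p, M i) := by
        rw [h6, Real.log_mul (by positivity) h7.ne']

end Fermat.Agent.S14.Thaine.Gen
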